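/-
Programme T1B, cell R2/BRANDT, brick (c) (helper53), part 1 (Mathlib only):
**the relative norm of a prime of residue degree one**, without separability or perfectness.

`A ⊂ B` Dedekind domains, `B` finite and torsion-free over `A`, `p` a nonzero maximal ideal of `A`
such that every prime `Q` of `B` over `p` has inertia degree `1`.  Then `relNorm A P = p` for every
prime `P` over `p`.

Proof: `relNorm (pB) = p ^ n` (`n = rank`), `pB = ∏ Q ^ e_Q`, `relNorm Q = p ^ s_Q` with
`s_Q ≥ 1`, so `∑ e_Q s_Q = n = ∑ e_Q f_Q = ∑ e_Q`, hence all `s_Q = 1`.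
(Mathlib's `Ideal.relNorm_eq_pow_of_isMaximal` needs a perfect fraction field.)
-/
import Mathlib

set_option autoImplicit false

open Ideal Module

namespace Fermat.Agent.T1B.Brandt53.RelNormOne

variable {A B : Type*} [CommRing A] [IsDedekindDomain A] [CommRing B] [IsDedekindDomain B]
  [Algebra A B] [Module.Finite A B] [IsTorsionFree A B]

/-- The exponent `s` with `relNorm A Q = p ^ s`. -/
noncomputable def normExp (p : Ideal A) [p.IsPrime] (Q : Ideal B) [Q.LiesOver p] : ℕ :=
  (exists_relNorm_eq_pow_of_isPrime Q p).choose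

theorem relNorm_eq_pow_normExp (p : Ideal A) [p.IsPrime] (Q : Ideal B) [Q.LiesOver p] :
    relNorm A Q = p ^ normExp p Q :=
  (exists_relNorm_eq_pow_of_isPrime Q p).choose_spec

theorem one_le_normExp (p : Ideal A) [p.IsMaximal] (Q : Ideal B) [Q.LiesOver p] :
    1 ≤ normExp p Q := by
  by_contra h
  have h0 : normExp p Q = 0 := by omega
  have h1 := relNorm_eq_pow_normExp p Q
  rw [h0, pow_zero, Ideal.one_eq_top] at h1
  have h2 : relNorm A Q ≤ comap (algebraMap A B) Q := relNorm_le_comap A Q
  rw [h1, ← Ideal.under_def, ← Ideal.over_def Q p, top_le_iff] at h2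
  exact (IsMaximal.ne_top inferInstance) h2

theorem pow_injective_of_isMaximal (p : Ideal A) [p.IsMaximal] (hp : p ≠ ⊥) {a b : ℕ}
    (h : p ^ a = p ^ b) : a = b := by
  have hp1 : p ≠ 1 := by
    rw [Ideal.one_eq_top]
    exact IsMaximal.ne_top inferInstance
  exact ((IsLeftCancelMulZero.mul_left_cancel_of_ne_zero hp).pow_injective hp1) h

/-- The sum formula `∑ e_Q s_Q = n`. -/
theorem sum_ramificationIdx_mul_normExp (p : Ideal A) [p.IsMaximal] (hp : p ≠ ⊥) :
    ∑ Q : p.primesOver B, Q.1.ramificationIdx A * normExp p Q.1 = finrank A B := by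
  have h1 : relNorm A (map (algebraMap A B) p) = p ^ finrank A B := relNorm_algebraMap B p
  have h2 : map (algebraMap A B) p = ∏ P ∈ p.primesOver B, P ^ P.ramificationIdx A :=
    Ideal.map_algebraMap_eq_finsetProd_pow hp
  rw [h2, map_prod] at h1
  rw [← Finset.prod_set_coe (s := p.primesOver B)] at h1
  have h3 : ∀ Q : p.primesOver B, relNorm A (Q.1 ^ Q.1.ramificationIdx A) =
      p ^ (Q.1.ramificationIdx A * normExp p Q.1) := by
    intro Q
    rw [map_pow, relNorm_eq_pow_normExp p Q.1, ← pow_mul, mul_comm]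
  simp only [h3, Finset.prod_pow_eq_pow_sum] at h1
  exact pow_injective_of_isMaximal p hp h1

/-- **The relative norm of a prime of degree one is the prime below**, when all primes over `p`
have inertia degree one. -/
theorem relNorm_eq_of_inertiaDeg_eq_one (p : Ideal A) [p.IsMaximal] (hp : p ≠ ⊥)
    (hf : ∀ Q ∈ p.primesOver B, Q.inertiaDeg A = 1) {P : Ideal B} (hP : P ∈ p.primesOver B) :
    relNorm A P = p := by
  have hsum1 := sum_ramificationIdx_mul_normExp (B := B) p hp
  have hsum2 : ∑ Q : p.primesOver B, Q.1.ramificationIdx A * Q.1.inertiaDeg A = finrank A B :=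
    Ideal.sum_ramification_inertia_eq_finrank p B
  have hsum3 : ∑ Q : p.primesOver B, Q.1.ramificationIdx A * normExp p Q.1 =
      ∑ Q : p.primesOver B, Q.1.ramificationIdx A * 1 := by
    rw [hsum1, ← hsum2]
    refine Finset.sum_congr rfl fun Q _ => ?_
    rw [hf Q.1 Q.2]
  -- termwise `≥`, equal sums, hence termwise equality
  have hle : ∀ Q ∈ (Finset.univ : Finset (p.primesOver B)),
      Q.1.ramificationIdx A * 1 ≤ Q.1.ramificationIdx A * normExp p Q.1 :=
    fun Q _ => Nat.mul_le_mul_left _ (one_le_normExp p Q.1)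
  have heq := (Finset.sum_eq_sum_iff_of_le hle).mp hsum3.symm ⟨P, hP⟩ (Finset.mem_univ _)
  have : P.IsPrime := hP.1
  have : P.LiesOver p := hP.2
  have he : 0 < P.ramificationIdx A := Ideal.ramificationIdx_pos P A
  have hs : normExp p P = 1 := by
    have := Nat.eq_of_mul_eq_mul_left he heq
    exact this.symm
  rw [relNorm_eq_pow_normExp p P, hs, pow_one]

end Fermat.Agent.T1B.Brandt53.RelNormOne
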